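import Fermat.Agent.BrauerInduction.Main
import Fermat.Agent.PrincipalBlock.Kuelshammer

/-!
# Elementary subgroups and class functions determined by regular parts

An elementary group is the product of a `p`-group and a group of order prime to `p` which commute.
So by Brauer's characterisation `pᵃ` times a character cut off at the regular elements is a
generalised character, and a class function with values in `O` which only depends on the regular
parts has all its coefficients in `O`.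
-/

set_option autoImplicit false
set_option linter.style.haveILetI false

noncomputable section

open Finset FA.CharacterTheory FA.FrobeniusGroups FA.Thompson FA.BrauerInduction FA.PrincipalBlock
open scoped Classical

namespace FA.BrauerFeit

universe u

variable {G : Type u} [Group G] [Fintype G]

/-- **Brauer's characterisation**, for coefficients in any additive subgroup. -/
theorem pairing_mem_of_elementary (A : AddSubgroup ℂ) {f : G → ℂ}
    (hf : ∀ g x, f (g * x * g⁻¹) = f x)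
    (h : ∀ H : Subgroup G, IsElementary H → ∀ φ ∈ irr H, pairing (fun y : H => f y) φ ∈ A)
    {χ : G → ℂ} (hχ : χ ∈ irr G) : pairing f χ ∈ A := by
  obtain ⟨W, -, rfl⟩ := exists_of_mem_irr hχ
  set χ := W.toRepresentation.character
  let pr : (G → ℂ) →+ ℂ :=
    { toFun := fun g => pairing (fun x => f x * g x) χ
      map_zero' := by simp [pairing]
      map_add' := fun a b => by simp [pairing, mul_add, add_mul, sum_add_distrib] }
  have key : brauerSpan G ≤ A.comap pr := by
    refine (AddSubgroup.closure_le _).2 ?_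
    rintro a ⟨H, hH, ψ, rfl⟩
    show pairing (fun x => f x * induced H (fun y => (ψ y : ℂ)) x) χ ∈ A
    rw [show (fun x => f x * induced H (fun y => (ψ y : ℂ)) x) =
      induced H fun y => f y * (ψ y : ℂ) from mul_induced H _ hf,
      pairing_induced H _ fun g x => W.toRepresentation.char_conj x g]
    let pH : (H → ℂ) →+ ℂ :=
      { toFun := fun g => pairing (fun y : H => f y) g
        map_zero' := by simp [pairing]
        map_add' := fun a b => by simp [pairing, mul_add, sum_add_distrib] }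
    have hσ : AddSubgroup.closure (irr H : Set (H → ℂ)) ≤ A.comap pH :=
      (AddSubgroup.closure_le _).2 fun φ hφ => h H hH φ hφ
    suffices h2 : pairing (fun y : H => f y * (ψ y : ℂ)) (fun y => χ y) =
        pairing (fun y : H => f y) (Representation.character
          (V := TensorProduct ℂ W.toSubmodule (Module.Dual ℂ ℂ)) (Representation.tprod
            (W.toRepresentation.comp H.subtype : Representation ℂ H W.toSubmodule)
            (linRep ψ).dual)) by
      rw [h2]
      exact hσ (character_mem_closure _)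
    simp only [pairing, Representation.char_tensor, Pi.mul_apply, Representation.char_dual,
      linRep_character]
    congr 1
    refine sum_congr rfl fun y _ => ?_
    rw [inv_inv]
    show f y * (ψ y : ℂ) * χ (y : G)⁻¹ = f y * (χ (y : G)⁻¹ * (ψ y : ℂ))
    ring
  have h1 := key (show (fun _ => 1 : G → ℂ) ∈ brauerSpan G by
    have hh := character_mem_brauerSpan (linRep (1 : G →* ℂˣ))
    rw [linRep_character] at hh
    simpa using hh)
  simpa [pr] using h1

variable {p : ℕ} [hp : Fact p.Prime]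

omit [Fintype G] in
theorem eq_one_of_pEl_reg {x : G} (hu : PEl p x) (hw : Reg p x) : x = 1 :=
  hu.elim fun _ hk => hw.eq_one_of_pow hk

omit [Fintype G] hp in
theorem reg_of_pow_eq_one {x : G} {n : ℕ} (hn : ¬ p ∣ n) (h : x ^ n = 1) : Reg p x :=
  fun hd => hn (hd.trans (orderOf_dvd_of_pow_eq_one h))

/-- The product of a `p`-group and a group of order prime to `p` which commute. -/
theorem exists_split {H : Subgroup G} (hH : IsElementary H) :
    ∃ A B : Subgroup H, (∀ a ∈ A, PEl p a) ∧ (∀ b ∈ B, Reg p b) ∧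
      (∀ a ∈ A, ∀ b ∈ B, a * b = b * a) ∧ ∀ x, ∃ a ∈ A, ∃ b ∈ B, x = a * b := by
  obtain ⟨q, c, P, hq, hP, hcop, hc, rfl⟩ := hH
  obtain ⟨c₁, c₂, hc₁, hc₂, hcc, ⟨k₁, hk₁⟩, hc₂r⟩ := exists_decomp (p := p) c
  obtain ⟨n₁, rfl⟩ := Subgroup.mem_zpowers_iff.1 hc₁
  obtain ⟨n₂, rfl⟩ := Subgroup.mem_zpowers_iff.1 hc₂
  have hcy : ∀ (n : ℤ), ∀ y ∈ P, Commute (c ^ n) y := fun n y hy => Commute.zpow_left (hc y hy) n
  set A₀ : Subgroup G := if q = p then P else Subgroup.zpowers (c ^ n₁) with hA₀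
  set B₀ : Subgroup G := Subgroup.zpowers (if q = p then c else c ^ n₂) ⊔
    (if q = p then ⊥ else P) with hB₀
  have hA : ∀ a ∈ A₀, PEl p a := by
    intro a ha
    by_cases h : q = p
    · rw [hA₀, if_pos h] at ha
      obtain ⟨k, hk⟩ := hP ⟨a, ha⟩
      exact ⟨k, h ▸ congrArg Subtype.val hk⟩
    · rw [hA₀, if_neg h] at ha
      obtain ⟨i, rfl⟩ := Subgroup.mem_zpowers_iff.1 ha
      exact ⟨k₁, by rw [← zpow_natCast, zpow_comm, zpow_natCast, hk₁, one_zpow]⟩
  have hle : A₀ ≤ Subgroup.zpowers c ⊔ P ∧ B₀ ≤ Subgroup.zpowers c ⊔ P := by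
    simp only [hA₀, hB₀]
    split_ifs
    · simp
    · exact ⟨le_sup_of_le_left (Subgroup.zpowers_le.2 hc₁), sup_le_sup_right
        (Subgroup.zpowers_le.2 hc₂) _⟩
  have hmem : ∀ b ∈ B₀, ∃ i : ℤ, ∃ y ∈ (if q = p then ⊥ else P : Subgroup G),
      b = (if q = p then c else c ^ n₂) ^ i * y := fun b hb => by
    refine exists_of_mem_sup (fun y hy => ?_) hb
    split_ifs at hy ⊢ with h
    · rw [Subgroup.mem_bot.1 hy, mul_one, one_mul]
    · exact (hcy n₂ y hy).eq
  have hB : ∀ b ∈ B₀, Reg p b := by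
    intro b hb
    obtain ⟨i, y, hy, rfl⟩ := hmem b hb
    split_ifs at hy ⊢ with h
    · rw [Subgroup.mem_bot.1 hy, mul_one]
      exact fun hd => hp.out.ne_one (Nat.eq_one_of_dvd_coprimes (h ▸ hcop)
        (hd.trans (orderOf_dvd_of_mem_zpowers (Subgroup.zpow_mem _ (Subgroup.mem_zpowers c) i)))
        dvd_rfl)
    · obtain ⟨k, hk⟩ := hP ⟨y, hy⟩
      have hyk : y ^ q ^ k = 1 := congrArg Subtype.val hk
      have hcm : Commute ((c ^ n₂) ^ i) y := (hcy n₂ y hy).zpow_left i
      refine reg_of_pow_eq_one (n := orderOf (c ^ n₂) * q ^ k) (fun hd => ?_) ?_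
      · rcases hp.out.dvd_mul.1 hd with h' | h'
        · exact hc₂r h'
        · exact h ((Nat.prime_dvd_prime_iff_eq hp.out hq).1 (hp.out.dvd_of_dvd_pow h')).symm
      · rw [hcm.mul_pow, mul_comm (orderOf _), pow_mul y, hyk, one_pow, mul_one, ← zpow_natCast,
          zpow_comm, zpow_natCast, mul_comm, pow_mul, pow_orderOf_eq_one, one_pow, one_zpow]
  have hAB : ∀ a ∈ A₀, ∀ b ∈ B₀, a * b = b * a := by
    intro a ha b hb
    obtain ⟨i, y, hy, rfl⟩ := hmem b hb
    rw [hA₀] at ha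
    split_ifs at ha hy ⊢ with h
    · rw [Subgroup.mem_bot.1 hy, mul_one]
      exact ((Commute.zpow_left (hc a ha) i).eq).symm
    · obtain ⟨j, rfl⟩ := Subgroup.mem_zpowers_iff.1 ha
      exact (Commute.mul_right (((Commute.refl c).zpow_zpow n₁ n₂).zpow_zpow j i)
        ((hcy n₁ y hy).zpow_left j)).eq
  have hprod : ∀ x ∈ Subgroup.zpowers c ⊔ P, ∃ a ∈ A₀, ∃ b ∈ B₀, x = a * b := by
    intro x hx
    obtain ⟨i, y, hy, rfl⟩ := exists_of_mem_sup hc hx
    simp only [hA₀, hB₀]
    split_ifs with h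
    · exact ⟨y, hy, c ^ i, Subgroup.mem_sup_left (Subgroup.zpow_mem _ (Subgroup.mem_zpowers c) i),
        (hcy i y hy).eq⟩
    · refine ⟨(c ^ n₁) ^ i, Subgroup.zpow_mem _ (Subgroup.mem_zpowers _) i, (c ^ n₂) ^ i * y,
        Subgroup.mul_mem_sup (Subgroup.zpow_mem _ (Subgroup.mem_zpowers _) i) hy, ?_⟩
      rw [← mul_assoc, ← ((Commute.refl c).zpow_zpow n₁ n₂).mul_zpow, ← hcc]
  refine ⟨A₀.subgroupOf _, B₀.subgroupOf _, fun a ha => pEl_coe.1 (hA _ ha),
    fun b hb => reg_coe.1 (hB _ hb), fun a ha b hb => Subtype.ext (hAB _ ha _ hb), fun x => ?_⟩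
  obtain ⟨a, ha, b, hb, he⟩ := hprod x x.2
  exact ⟨⟨a, hle.1 ha⟩, ha, ⟨b, hle.2 hb⟩, hb, Subtype.ext he⟩

/-- Sums over a split group. -/
theorem sum_split {A B : Subgroup G} (hA : ∀ a ∈ A, PEl p a) (hB : ∀ b ∈ B, Reg p b)
    (hsurj : ∀ x, ∃ a ∈ A, ∃ b ∈ B, x = a * b) (F : G → ℂ) :
    ∑ x, F x = ∑ a : A, ∑ b : B, F (a * b) := by
  rw [← Fintype.sum_prod_type']
  symm
  refine Fintype.sum_bijective (fun x : A × B => (x.1 : G) * x.2) ⟨?_, fun x => ?_⟩ _ _
    fun x => rfl
  · rintro ⟨a, b⟩ ⟨a', b'⟩ h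
    have h1 : (a' : G)⁻¹ * a = b' * (b : G)⁻¹ := by
      rw [eq_mul_inv_iff_mul_eq, mul_assoc, inv_mul_eq_iff_eq_mul]
      exact h
    have h2 : (a' : G)⁻¹ * a = 1 := eq_one_of_pEl_reg (hA _ (A.mul_mem (A.inv_mem a'.2) a.2))
      (h1 ▸ hB _ (B.mul_mem b'.2 (B.inv_mem b.2)))
    have h3 : a = a' := Subtype.ext (inv_mul_eq_one.1 h2).symm
    subst h3
    exact Prod.ext rfl (Subtype.ext (mul_left_cancel h))
  · obtain ⟨a, ha, b, hb, rfl⟩ := hsurj x
    exact ⟨(⟨a, ha⟩, ⟨b, hb⟩), rfl⟩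

theorem card_split {A B : Subgroup G} (hA : ∀ a ∈ A, PEl p a) (hB : ∀ b ∈ B, Reg p b)
    (hsurj : ∀ x, ∃ a ∈ A, ∃ b ∈ B, x = a * b) :
    (Nat.card G : ℂ) = (Nat.card A : ℂ) * Nat.card B := by
  simpa [Nat.card_eq_fintype_card] using sum_split hA hB hsurj fun _ => (1 : ℂ)

omit hp [Fintype G] in
theorem isPGroup_of_pEl {A : Subgroup G} (hA : ∀ a ∈ A, PEl p a) : IsPGroup p A := fun a => by
  obtain ⟨k, hk⟩ := hA a a.2
  exact ⟨k, Subtype.ext hk⟩

theorem not_dvd_card {B : Subgroup G} (hB : ∀ b ∈ B, Reg p b) : ¬ p ∣ Nat.card B := fun h => by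
  obtain ⟨b, hb⟩ := exists_prime_orderOf_dvd_card' p h
  exact hB b b.2 (by rw [Subgroup.orderOf_coe, hb])

/-- **`pᵃ` times a character, cut off at the regular elements, is a generalised character.** -/
theorem int_pairing_cut {χ : G → ℂ} (hχ : χ ∈ irr G) {ψ : G → ℂ} (hψ : ψ ∈ irr G) :
    ∃ n : ℤ, (p : ℂ) ^ (Nat.card G).factorization p * pairing (fun g => indR p g * χ g) ψ = n := by
  set a := (Nat.card G).factorization p
  have hfs : ∀ φ : G → ℂ, pairing (fun g => (p : ℂ) ^ a * (indR p g * χ g)) φ =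
      (p : ℂ) ^ a * pairing (fun g => indR p g * χ g) φ := fun φ => by
    simp [pairing, mul_sum, mul_assoc, mul_left_comm]
  rw [← hfs]
  obtain ⟨W, -, rfl⟩ := exists_of_mem_irr hχ
  refine exists_int_pairing_of_elementary (fun g x => ?_) (fun H hH φ hφ => ?_) hψ
  · simp only [indR, reg_conj_iff, W.toRepresentation.char_conj]
  obtain ⟨A, B, hA, hB, hAB, hsurj⟩ := exists_split (p := p) hH
  obtain ⟨V, -, rfl⟩ := exists_of_mem_irr hφ
  obtain ⟨m, hm⟩ := exists_int_pairing (W.toRepresentation.comp (H.subtype.comp B.subtype))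
    (V.toRepresentation.comp B.subtype)
  obtain ⟨j, hj⟩ := (isPGroup_of_pEl hA).exists_card_eq
  have hja : j ≤ a := (Nat.Prime.pow_dvd_iff_le_factorization hp.out Nat.card_pos.ne').1
    (hj ▸ (Subgroup.card_subgroup_dvd_card A).trans (Subgroup.card_subgroup_dvd_card H))
  refine ⟨(p : ℤ) ^ (a - j) * m, ?_⟩
  have hB0 : (Nat.card B : ℂ) ≠ 0 := Nat.cast_ne_zero.2 Nat.card_pos.ne'
  have hp0 : (p : ℂ) ≠ 0 := Nat.cast_ne_zero.2 hp.out.ne_zero
  rw [pairing, sum_split hA hB hsurj, card_split hA hB hsurj, hj, Finset.sum_eq_single 1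
    (fun x _ hx => sum_eq_zero fun b _ => ?_) (by simp), Int.cast_mul, Int.cast_pow,
    Int.cast_natCast, ← hm, pairing, ← Nat.sub_add_cancel hja, pow_add]
  · simp only [OneMemClass.coe_one, one_mul, indR, if_pos (reg_coe.2 (hB _ (SetLike.coe_mem _))),
      Nat.cast_pow, mul_sum, mul_inv, Nat.add_sub_cancel]
    refine sum_congr rfl fun b _ => ?_
    field_simp
    rfl
  · suffices h : ¬ Reg p ((x : H) * b : H) by
      rw [indR, if_neg fun h' => h (reg_coe.1 h')]
      ring
    intro h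
    refine hx (Subtype.ext (eq_one_of_pEl_reg (hA _ x.2) ?_))
    obtain ⟨k, hk⟩ := hA _ x.2
    have hbn := pow_orderOf_eq_one (b : H)
    refine reg_of_pow_eq_one (n := orderOf ((x : H) * b) * orderOf (b : H))
      (fun hd => (hp.out.dvd_mul.1 hd).elim h (hB _ b.2)) ?_
    have e : (x : H) = (x * b) * (b : H)⁻¹ := by simp
    have hcm : Commute ((x : H) * b) (b : H)⁻¹ :=
      (Commute.mul_left (hAB _ x.2 _ b.2) (Commute.refl _)).inv_right
    rw [e, hcm.mul_pow, ← e, pow_mul, pow_orderOf_eq_one, one_pow, one_mul, inv_pow, mul_comm,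
      pow_mul, hbn, one_pow, inv_one]

omit hp in
/-- The average over a central factor of a character is a generalised character. -/
theorem average_mem {v : Place p} {A B : Subgroup G} (hAB : ∀ a ∈ A, ∀ b ∈ B, a * b = b * a)
    {φ : G → ℂ} (hφ : φ ∈ irr G) (b : B) :
    (Nat.card A : ℂ)⁻¹ * ∑ a : A, φ ((a : G) * b)⁻¹ ∈ v.O := by
  set h : B → ℂ := fun b => (Nat.card A : ℂ)⁻¹ * ∑ a : A, φ ((a : G) * b)⁻¹ with hh
  obtain ⟨V, -, rfl⟩ := exists_of_mem_irr hφ
  have hcls : ∀ g x : B, h (g * x * g⁻¹) = h x := fun g x => by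
    simp only [hh]
    congr 1
    refine sum_congr rfl fun a _ => ?_
    rw [← V.toRepresentation.char_conj ((a : G) * x)⁻¹ g]
    congr 1
    rw [show (g : G) * ((a : G) * x)⁻¹ * (g : G)⁻¹ = ((g : G) * ((a : G) * x) * (g : G)⁻¹)⁻¹ by
      group, ← mul_assoc (g : G), ← hAB a a.2 g g.2]
    simp [mul_assoc]
  rw [show (Nat.card A : ℂ)⁻¹ * _ = h b from rfl, expansion hcls]
  refine sum_mem fun ψ hψ => mul_mem ?_ (v.irr_mem hψ b)
  obtain ⟨U, -, rfl⟩ := exists_of_mem_irr hψ
  let μ : A × B →* G :=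
    { toFun := fun x => (x.1 : G) * x.2
      map_one' := by simp
      map_mul' := fun x y => by
        have := hAB y.1 y.1.2 x.2 x.2.2
        simp only [Prod.fst_mul, Prod.snd_mul, Subgroup.coe_mul]
        rw [mul_assoc (x.1 : G), ← mul_assoc (y.1 : G), this]
        group }
  obtain ⟨m, hm⟩ := exists_int_pairing (K := A × B)
    (Representation.dual (U.toRepresentation.comp (MonoidHom.snd A B) :
      Representation ℂ (A × B) U.toSubmodule)) (V.toRepresentation.comp μ)
  convert intCast_mem v.O m using 1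
  rw [← hm]
  simp only [pairing, hh, Representation.char_dual, Nat.card_prod, Nat.cast_mul, mul_inv,
    Fintype.sum_prod_type, sum_mul, mul_sum]
  rw [sum_comm]
  refine sum_congr rfl fun a _ => sum_congr rfl fun c _ => ?_
  show _ = _ * (U.toRepresentation.character c⁻¹ * V.toRepresentation.character (μ (a, c)⁻¹))
  rw [map_inv]
  show _ = _ * (_ * V.toRepresentation.character ((a : G) * c)⁻¹)
  ring

/-- **Brauer's lemma**: integrality for functions of the regular part. -/
theorem pairing_mem_of_regular_part (v : Place p) {f : G → ℂ}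
    (hf : ∀ g x, f (g * x * g⁻¹) = f x) (hO : ∀ g, f g ∈ v.O)
    (hsec : ∀ u w, PEl p u → Reg p w → Commute u w → f (u * w) = f w)
    {χ : G → ℂ} (hχ : χ ∈ irr G) : pairing f χ ∈ v.O := by
  refine pairing_mem_of_elementary v.O.toSubring.toAddSubgroup hf (fun H hH φ hφ => ?_) hχ
  obtain ⟨A, B, hA, hB, hAB, hsurj⟩ := exists_split (p := p) hH
  show pairing _ _ ∈ v.O
  have he : pairing (fun y : H => f y) φ = (Nat.card B : ℂ)⁻¹ *
      ∑ b : B, f (b : H) * ((Nat.card A : ℂ)⁻¹ * ∑ a : A, φ ((a : H) * b)⁻¹) := by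
    rw [pairing, sum_split hA hB hsurj, card_split hA hB hsurj, sum_comm, mul_inv]
    simp only [mul_sum]
    refine sum_congr rfl fun b _ => sum_congr rfl fun a _ => ?_
    rw [show f ((a : H) * b : H) = f (b : H) by
      rw [Subgroup.coe_mul]
      exact hsec _ _ (pEl_coe.2 (hA _ a.2)) (reg_coe.2 (hB _ b.2))
        (congrArg Subtype.val (hAB _ a.2 _ b.2))]
    ring
  rw [he]
  exact mul_mem (v.inv_natCast_mem (not_dvd_card hB))
    (sum_mem fun b _ => mul_mem (hO _) (average_mem hAB hφ b))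

end FA.BrauerFeit

end
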