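import Fermat.Agent.BrauerFeit.Basic
import Fermat.Agent.BrauerFeit.Elementary

/-!
# The contributions of the regular elements

`contr p χ ψ` is the contribution of the regular elements to the pairing of `χ` and `ψ`.  Within a
block it is the matrix of a projection, `pᵈ` times it is integral, and since the block idempotent is
a combination over `O` of the characters of the block cut off at the regular elements, some column
has no zero.
-/

set_option autoImplicit false
set_option linter.style.haveILetI false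

noncomputable section

open Finset FA.CharacterTheory FA.FrobeniusGroups FA.Thompson FA.PrincipalBlock
open scoped Classical

namespace FA.BrauerFeit

variable {G : Type*} [Group G] [Fintype G] {p : ℕ} [hp : Fact p.Prime] {v : Place p}

/-- The contribution of the regular elements to a pairing. -/
def contr (p : ℕ) (χ ψ : G → ℂ) : ℂ := pairing (fun g => indR p g * χ g) ψ

/-- A character at the inverse, cut off at the regular elements. -/
def rpart (p : ℕ) (χ : G → ℂ) : G → ℂ := fun g => indR p g * χ g⁻¹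

omit hp in
theorem contr_eq (χ ψ : G → ℂ) :
    contr p χ ψ = (Nat.card G : ℂ)⁻¹ * ∑ s ∈ univ.filter (Reg p), χ s * ψ s⁻¹ := by
  rw [contr, pairing, sum_filter]
  congr 1
  exact sum_congr rfl fun g _ => by rw [indR]; split_ifs <;> simp

omit hp in
theorem contr_comm (χ ψ : G → ℂ) : contr p χ ψ = contr p ψ χ := by
  rw [contr_eq, contr_eq]
  congr 1
  exact sum_nbij' (·⁻¹) (·⁻¹) (fun s hs => by simpa using (mem_filter.1 hs).2.inv)
    (fun s hs => by simpa using (mem_filter.1 hs).2.inv) (by simp) (by simp)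
    fun s _ => by rw [inv_inv, mul_comm]

theorem Good.contr_eq_zero {S : Finset (G → ℂ)} (hS : Good v S) {φ : G → ℂ} (hφ : φ ∈ irr G)
    (hφS : φ ∉ S) {ψ : G → ℂ} (hψ : ψ ∈ S) : contr p φ ψ = 0 := by
  rw [contr_eq, hS.regular_orth hφ hφS hψ, mul_zero]

omit hp in
theorem isCls_cut {χ : G → ℂ} (hχ : χ ∈ irr G) : IsCls fun g => indR p g * χ g :=
  fun g x => by simp only [indR, reg_conj_iff, irr_conj hχ]

/-- Cutting off at the regular elements is the projection given by the contributions. -/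
theorem cut_eq_sum {S : Finset (G → ℂ)} (hS : Good v S) {χ : G → ℂ} (hχ : χ ∈ S) (g : G) :
    indR p g * χ g = ∑ ψ ∈ S, contr p χ ψ * ψ g := by
  refine (expansion (f := fun g => indR p g * χ g) (isCls_cut (p := p) (hS.sub hχ)) g).trans ?_
  refine (sum_subset hS.sub fun ψ hψ hn => ?_).symm
  change contr p χ ψ * ψ g = 0
  rw [contr_comm, Good.contr_eq_zero hS hψ hn hχ, zero_mul]

/-- **The contributions form an idempotent matrix.** -/
theorem contr_idem {S : Finset (G → ℂ)} (hS : Good v S) {χ φ : G → ℂ} (hχ : χ ∈ S) :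
    ∑ ψ ∈ S, contr p χ ψ * contr p ψ φ = contr p χ φ := by
  conv_rhs => rw [contr_eq]
  simp only [contr_eq (χ := _) (ψ := φ), mul_sum]
  rw [sum_comm]
  refine sum_congr rfl fun s hs => ?_
  have h := cut_eq_sum hS hχ s
  rw [indR, if_pos (mem_filter.1 hs).2, one_mul] at h
  rw [h, sum_mul, mul_sum]
  exact sum_congr rfl fun ψ _ => by ring

omit hp in
theorem isCen_rpart {χ : G → ℂ} (hχ : χ ∈ irr G) : IsCen v (rpart p χ) := by
  refine ⟨fun g x => ?_, fun g => mul_mem ?_ (v.irr_mem hχ _)⟩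
  · simp only [rpart, indR, reg_conj_iff]
    rw [show (g * x * g⁻¹)⁻¹ = g * x⁻¹ * g⁻¹ by group, irr_conj hχ]
  · exact (isCen_indR (v := v)).mem g

omit hp in
theorem omega_rpart (ψ χ : G → ℂ) :
    omega ψ (rpart p χ) = (Nat.card G : ℂ) / ψ 1 * contr p ψ χ := by
  have hN : (Nat.card G : ℂ) ≠ 0 := Nat.cast_ne_zero.2 Nat.card_pos.ne'
  rw [omega, contr, pairing, div_eq_inv_mul, mul_assoc, mul_inv_cancel_left₀ hN]
  congr 1
  exact sum_congr rfl fun g _ => by simp only [rpart]; ring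

/-- **Integrality**: `p^(a-e) r` is an integer, `pᵉ` exactly dividing the degree. -/
theorem exists_int_contr (v : Place p) {χ : G → ℂ} (hχ : χ ∈ irr G) {ψ : G → ℂ}
    (hψ : ψ ∈ irr G) : ∃ m : ℤ, (p : ℂ) ^ defectExp p χ * contr p χ ψ = m := by
  obtain ⟨n, hn⟩ := int_pairing_cut (p := p) hχ hψ
  change (p : ℂ) ^ _ * contr p χ ψ = n at hn
  have h := (isCen_rpart (v := v) hψ).omega_mem hχ
  rw [omega_rpart, (deg_spec hχ).1] at h
  obtain ⟨m, hm, hd⟩ := split_natCast (p := p) (deg_spec hχ).2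
  obtain ⟨l, hl, hG⟩ := split_natCast (p := p) (Nat.card_pos (α := G)).ne'
  rw [defectExp]
  generalize (Nat.card G).factorization p = a at hn hG ⊢
  generalize (deg χ).factorization p = e at hd ⊢
  have hl0 : (l : ℂ) ≠ 0 := Nat.cast_ne_zero.2 fun h0 => hl (h0 ▸ dvd_zero p)
  have hm0 : (m : ℂ) ≠ 0 := Nat.cast_ne_zero.2 fun h0 => hm (h0 ▸ dvd_zero p)
  have hp0 : (p : ℂ) ≠ 0 := Nat.cast_ne_zero.2 hp.out.ne_zero
  have h' := mul_mem (mul_mem (natCast_mem v.O m) (v.inv_natCast_mem hl)) h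
  rw [show (m : ℂ) * (l : ℂ)⁻¹ * ((Nat.card G : ℂ) / (deg χ : ℂ) * contr p χ ψ) =
      (n : ℂ) / (p : ℂ) ^ e by
    rw [hG, hd, ← hn]; push_cast; field_simp] at h'
  obtain ⟨k, rfl⟩ := pow_dvd_of_div_mem h'
  have he0 : (p : ℂ) ^ (a - (a - e)) ≠ 0 := pow_ne_zero _ hp0
  refine ⟨(p : ℤ) ^ (e - (a - (a - e))) * k, mul_left_cancel₀ he0 ?_⟩
  rw [← mul_assoc, ← pow_add, Nat.sub_add_cancel (Nat.sub_le a e), hn]
  push_cast
  rw [← mul_assoc, ← pow_add, Nat.add_sub_cancel' (by omega : a - (a - e) ≤ e)]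

theorem exists_int_contr_block {S : Finset (G → ℂ)} (hS : Good v S) {χ ψ : G → ℂ} (hχ : χ ∈ S)
    (hψ : ψ ∈ irr G) : ∃ m : ℤ, (p : ℂ) ^ ordDefect p S * contr p χ ψ = m := by
  obtain ⟨m, hm⟩ := exists_int_contr v (hS.sub hχ) hψ
  refine ⟨(p : ℤ) ^ (ordDefect p S - defectExp p χ) * m, ?_⟩
  rw [Int.cast_mul, ← hm, Int.cast_pow, Int.cast_natCast, ← mul_assoc, ← pow_add,
    Nat.sub_add_cancel (show defectExp p χ ≤ ordDefect p S from le_sup hχ)]

/-- **The block idempotent over `O` by characters cut off at the regular elements.** -/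
theorem exists_aS_expansion {S : Finset (G → ℂ)} (hS : Good v S) :
    ∃ c : (G → ℂ) → ℂ, (∀ χ ∈ S, c χ ∈ v.O) ∧ aS S = ∑ χ ∈ S, c χ • rpart p χ := by
  obtain ⟨l, hl, hG⟩ := split_natCast (p := p) (Nat.card_pos (α := G)).ne'
  set a := (Nat.card G).factorization p
  obtain ⟨N, hN1, hN2⟩ :=
    Nat.chineseRemainder ((hp.out.coprime_iff_not_dvd.2 hl).pow_left a) 0 1
  have hu : ∀ u : G, PEl p u → u ^ N = 1 := fun u ⟨k, hk⟩ => by
    have h1 : u ^ p ^ a = 1 := by
      have hc : (p ^ k).Coprime l := (hp.out.coprime_iff_not_dvd.2 hl).pow_left k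
      exact orderOf_dvd_iff_pow_eq_one.1
        (Nat.Coprime.dvd_of_dvd_mul_right
          (hc.coprime_dvd_left (orderOf_dvd_of_pow_eq_one hk)) (hG ▸ orderOf_dvd_natCard u))
    obtain ⟨q, hq⟩ := Nat.modEq_zero_iff_dvd.1 hN1
    rw [hq, pow_mul, h1, one_pow]
  have hw : ∀ w : G, Reg p w → w ^ N = w := fun w hw => by
    have h1 : orderOf w ∣ l :=
      ((hp.out.coprime_iff_not_dvd.2 hw).symm.pow_right a).dvd_of_dvd_mul_left
        (hG ▸ orderOf_dvd_natCard w)
    nth_rw 2 [← pow_one w]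
    exact pow_eq_pow_iff_modEq.2 (hN2.of_dvd h1)
  set F : G → ℂ := fun g => aS S (g ^ N)⁻¹ with hF
  have hFc : ∀ g x, F (g * x * g⁻¹) = F x := fun g x => by
    simp only [hF]
    rw [conj_pow, show (g * x ^ N * g⁻¹)⁻¹ = g * (x ^ N)⁻¹ * g⁻¹ by group, isCls_aS hS.sub]
  have hc : ∀ χ ∈ irr G, pairing F χ ∈ v.O := fun χ hχ =>
    pairing_mem_of_regular_part v hFc (fun g => hS.cen.mem _) (fun u w hu' hw' hcm => by
      simp only [hF, hcm.mul_pow, hu u hu', one_mul]) hχ
  refine ⟨fun χ => pairing F χ, fun χ hχ => hc χ (hS.sub hχ), ?_⟩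
  have hall : aS S = ∑ χ ∈ irr G, pairing F χ • rpart p χ := funext fun g => by
    simp only [Finset.sum_apply, Pi.smul_apply, smul_eq_mul, rpart, mul_left_comm _ (indR p g),
      ← mul_sum, ← expansion hFc g⁻¹]
    rw [indR]
    split_ifs with hg
    · simp only [hF, hw _ hg.inv, inv_inv, one_mul]
    · rw [zero_mul, hS.aS_singular hg]
  have hsum : ∀ (ψ : G → ℂ) (T : Finset (G → ℂ)), omega ψ (∑ χ ∈ T, pairing F χ • rpart p χ) =
      ∑ χ ∈ T, pairing F χ * omega ψ (rpart p χ) := fun ψ T => by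
    induction T using Finset.induction_on with
    | empty => simp [omega]
    | insert χ T h ih => rw [sum_insert h, sum_insert h, omega_add, omega_smul, ih]
  refine eq_of_omega (isCls_aS hS.sub) (fun g x => ?_) fun ψ hψ => ?_
  · simp only [Finset.sum_apply, Pi.smul_apply]
    exact sum_congr rfl fun χ hχ => by rw [(isCen_rpart (v := v) (hS.sub hχ)).cls g x]
  by_cases hψS : ψ ∈ S
  · rw [hall, hsum, hsum]
    refine (sum_subset hS.sub fun χ hχ hn => ?_).symm
    rw [omega_rpart, contr_comm, Good.contr_eq_zero hS hχ hn hψS, mul_zero, mul_zero]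
  · rw [omega_aS hS.sub hψ, if_neg hψS, hsum]
    exact (sum_eq_zero fun χ hχ => by
      rw [omega_rpart, Good.contr_eq_zero hS hψ hψS hχ, mul_zero, mul_zero]).symm

/-- Some character of the block has no vanishing contribution within the block. -/
theorem exists_contr_ne_zero {χ₀ : G → ℂ} (hχ₀ : χ₀ ∈ irr G) :
    ∃ φ ∈ blk v χ₀, ∀ χ ∈ blk v χ₀, contr p χ φ ≠ 0 := by
  have hS := good_blk v χ₀
  obtain ⟨c, hc, he⟩ := exists_aS_expansion hS
  have hmem : χ₀ ∈ blk v χ₀ := mem_filter.2 ⟨hχ₀, fun _ _ => rfl⟩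
  have h1 : (1 : ℂ) = ∑ φ ∈ blk v χ₀, c φ * omega χ₀ (rpart p φ) := by
    have h := omega_aS hS.sub hχ₀
    rw [if_pos hmem, he] at h
    rw [← h]
    simp only [omega, Finset.sum_apply, Pi.smul_apply, smul_eq_mul, sum_mul, mul_sum]
    rw [sum_comm]
    exact sum_congr rfl fun φ _ => sum_congr rfl fun g _ => by ring
  obtain ⟨φ, hφ, hne⟩ : ∃ φ ∈ blk v χ₀, v.r (omega χ₀ (rpart p φ)) ≠ 0 := by
    by_contra! hall
    have h2 := congrArg v.r h1
    rw [v.r_one, v.r_sum _ fun φ hφ => mul_mem (hc φ hφ)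
      ((isCen_rpart (v := v) (hS.sub hφ)).omega_mem hχ₀), sum_eq_zero fun φ hφ => by
      rw [v.r_mul (hc φ hφ) ((isCen_rpart (v := v) (hS.sub hφ)).omega_mem hχ₀), hall φ hφ,
        mul_zero]] at h2
    exact one_ne_zero h2
  refine ⟨φ, hφ, fun χ hχ h0 => hne ?_⟩
  rw [(mem_filter.1 hχ).2 _ (isCen_rpart (hS.sub hφ)), omega_rpart, h0, mul_zero, v.r_zero]

end FA.BrauerFeit

end
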