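import Fermat.Agent.PrincipalBlock.Kuelshammer
import Fermat.Agent.DefectGroups.Blocks
import Mathlib.GroupTheory.GroupAction.ConjAct
import Mathlib.Data.Nat.Factorization.Basic

/-!
# Degrees, classes and divisibility in `O`
-/

set_option autoImplicit false
set_option linter.style.haveILetI false

noncomputable section

open Finset FA.CharacterTheory FA.FrobeniusGroups FA.Thompson FA.PrincipalBlock
open scoped Classical

namespace FA.BrauerFeit

variable {G : Type*} [Group G] [Fintype G]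

/-- The degree of a character. -/
def deg (χ : G → ℂ) : ℕ := ⌊(χ 1).re⌋₊

theorem deg_spec {χ : G → ℂ} (hχ : χ ∈ irr G) : χ 1 = (deg χ : ℂ) ∧ deg χ ≠ 0 := by
  obtain ⟨d, hd, h⟩ := irr_one hχ
  have : deg χ = d := by rw [deg, h, Complex.natCast_re, Nat.floor_natCast]
  rw [this]
  exact ⟨h, hd⟩

/-- The exponent of `p` in `|G| / χ(1)`. -/
def defectExp (p : ℕ) (χ : G → ℂ) : ℕ :=
  (Nat.card G).factorization p - (deg χ).factorization p

/-- The defect of a set of characters. -/
def ordDefect (p : ℕ) (S : Finset (G → ℂ)) : ℕ := S.sup (defectExp p)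

variable {p : ℕ} [hp : Fact p.Prime] {v : Place p}

omit [Fintype G] in
omit [Group G] in
theorem split_natCast {n : ℕ} (hn : n ≠ 0) :
    ∃ m : ℕ, ¬ p ∣ m ∧ n = p ^ n.factorization p * m :=
  ⟨_, Nat.not_dvd_ordCompl hp.out hn, (Nat.ordProj_mul_ordCompl_eq_self n p).symm⟩

/-- An integer divided by a power of `p` lies in `O` only when divisible by it. -/
theorem pow_dvd_of_div_mem {n : ℤ} {e : ℕ} (h : (n : ℂ) / (p : ℂ) ^ e ∈ v.O) :
    (p : ℤ) ^ e ∣ n := by
  have hp0 : (p : ℂ) ≠ 0 := Nat.cast_ne_zero.2 hp.out.ne_zero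
  induction e with
  | zero => simp
  | succ e ih =>
    have h' := mul_mem (natCast_mem v.O p) h
    rw [show (p : ℂ) * ((n : ℂ) / (p : ℂ) ^ (e + 1)) = (n : ℂ) / (p : ℂ) ^ e by
      field_simp; ring] at h'
    obtain ⟨n', rfl⟩ := ih h'
    rw [show (((p : ℤ) ^ e * n' : ℤ) : ℂ) / (p : ℂ) ^ (e + 1) = (n' : ℂ) / p by
      push_cast; field_simp; ring] at h
    have h0 : v.r (n' : ℂ) = 0 := by
      rw [show (n' : ℂ) = (p : ℂ) * ((n' : ℂ) / p) by field_simp, v.r_mul (natCast_mem _ p) h,
        v.r_natCast, CharP.cast_eq_zero, zero_mul]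
    rw [pow_succ]
    exact mul_dvd_mul_left _ (v.int_eq_zero_iff.1 h0)

/-- A natural ratio lies in `O` only if the exponents compare. -/
theorem le_of_div_mem {n d : ℕ} (hn : n ≠ 0) (hd : d ≠ 0) (h : (n : ℂ) / d ∈ v.O) :
    d.factorization p ≤ n.factorization p := by
  obtain ⟨m, hm, he⟩ := split_natCast (p := p) hd
  have hm0 : (m : ℂ) ≠ 0 := Nat.cast_ne_zero.2 fun h0 => hm (h0 ▸ dvd_zero p)
  have h' := mul_mem (natCast_mem v.O m) h
  generalize d.factorization p = e at he ⊢
  rw [show (m : ℂ) * ((n : ℂ) / d) = ((n : ℤ) : ℂ) / (p : ℂ) ^ e by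
    rw [he]; push_cast; field_simp] at h'
  refine (hp.out.pow_dvd_iff_le_factorization hn).1 ?_
  exact_mod_cast pow_dvd_of_div_mem h'

/-- A natural ratio with positive exponent reduces to `0`. -/
theorem r_div_eq_zero {n d : ℕ} (hd : d ≠ 0) (h : d.factorization p < n.factorization p) :
    (n : ℂ) / d ∈ v.O ∧ v.r ((n : ℂ) / d) = 0 := by
  obtain ⟨m, hm, he⟩ := split_natCast (p := p) hd
  obtain ⟨k, hk⟩ : p ^ (d.factorization p + 1) ∣ n :=
    (pow_dvd_pow p h).trans (Nat.ordProj_dvd n p)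
  generalize d.factorization p = e at he hk
  have hm0 : (m : ℂ) ≠ 0 := Nat.cast_ne_zero.2 fun h0 => hm (h0 ▸ dvd_zero p)
  have hp0 : (p : ℂ) ≠ 0 := Nat.cast_ne_zero.2 hp.out.ne_zero
  have hq : (k : ℂ) * (m : ℂ)⁻¹ ∈ v.O := mul_mem (natCast_mem _ _) (v.inv_natCast_mem hm)
  have hnd : (n : ℂ) / d = (p : ℂ) * ((k : ℂ) * (m : ℂ)⁻¹) := by
    rw [hk, he]; push_cast; field_simp; ring
  rw [hnd]
  refine ⟨mul_mem (natCast_mem _ _) hq, ?_⟩
  rw [v.r_mul (natCast_mem _ _) hq, v.r_natCast, CharP.cast_eq_zero, zero_mul]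

omit hp in
/-- Elements of `O` below the maximal ideal give small central characters. -/
theorem r_omega_eq_zero {f : G → ℂ} (hf : IsCen v f) (h0 : ∀ g, v.r (f g) = 0) {χ : G → ℂ}
    (hχ : χ ∈ irr G) : v.r (omega χ f) = 0 := by
  obtain ⟨g₀, -, hmax⟩ :=
    Finset.exists_max_image univ (fun g => v.O.valuation (f g)) univ_nonempty
  by_cases hz : f g₀ = 0
  · have h : f = 0 := funext fun g => by
      have := hmax g (mem_univ g)
      rw [hz, map_zero, le_zero_iff, Valuation.zero_iff] at this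
      exact this
    simp [h, omega, v.r_zero]
  have hf' : IsCen v ((f g₀)⁻¹ • f) := ⟨fun g x => by simp [hf.cls g x], fun g => by
    rw [← ValuationSubring.valuation_le_one_iff, Pi.smul_apply, smul_eq_mul, map_mul, map_inv₀]
    exact inv_mul_le_one_of_le₀ (hmax g (mem_univ g)) zero_le⟩
  rw [show f = f g₀ • ((f g₀)⁻¹ • f) by rw [smul_smul, mul_inv_cancel₀ hz, one_smul], omega_smul,
    v.r_mul (hf.mem g₀) (hf'.omega_mem hχ), h0, zero_mul]

omit hp [Group G] in
theorem coeff_toAlg (f : G → ℂ) (g : G) : (toAlg v f).coeff g = v.r (f g) := by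
  simp [toAlg, MonoidAlgebra.coeff_sum, MonoidAlgebra.coeff_single, Finsupp.single_apply]

omit hp in
theorem toAlg_mem_Z {f : G → ℂ} (hf : IsCls f) :
    toAlg v f ∈ DefectGroups.Z v.k G :=
  DefectGroups.mem_Z_iff.2 fun g x => by rw [coeff_toAlg, coeff_toAlg, hf]

omit hp in
/-- Congruent functions have congruent central characters. -/
theorem r_omega_congr {f f' : G → ℂ} (hf : IsCen v f) (hf' : IsCen v f')
    (h : toAlg v f = toAlg v f') {χ : G → ℂ} (hχ : χ ∈ irr G) :
    v.r (omega χ f) = v.r (omega χ f') := by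
  rw [← sub_eq_zero, ← v.r_sub (hf.omega_mem hχ) (hf'.omega_mem hχ), ← omega_sub]
  refine r_omega_eq_zero (hf.sub hf') (fun g => ?_) hχ
  rw [Pi.sub_apply, v.r_sub (hf.mem g) (hf'.mem g), ← coeff_toAlg, ← coeff_toAlg, h, sub_self]

omit hp in
/-- **Central elements lift** to class functions with values in `O`. -/
theorem exists_lift {z : MonoidAlgebra v.k G} (hz : z ∈ DefectGroups.Z v.k G) :
    ∃ F, IsCen v F ∧ toAlg v F = z := by
  obtain ⟨σ, hσ⟩ := (IsLocalRing.residue_surjective (R := v.O)).hasRightInverse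
  refine ⟨fun g => (σ (z.coeff g) : ℂ),
    ⟨fun g x => by simp only [DefectGroups.mem_Z_iff.1 hz g x], fun g => (σ (z.coeff g)).2⟩,
    DefectGroups.ext_coeff fun g => ?_⟩
  rw [coeff_toAlg, v.r_coe]
  exact hσ _

/-- The class of an element. -/
def classOf (g : G) : Finset G := univ.filter (IsConj g)

omit hp in
theorem card_classOf (g : G) :
    (classOf g).card * Nat.card (Subgroup.centralizer ({g} : Set G)) = Nat.card G := by
  have h := MulAction.card_orbit_mul_card_stabilizer_eq_card_group (ConjAct G) g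
  simp only [← Nat.card_eq_fintype_card] at h
  rw [ConjAct.stabilizer_eq_centralizer] at h
  have h1 : Nat.card (MulAction.orbit (ConjAct G) g) = (classOf g).card := by
    rw [← Nat.card_eq_finsetCard]
    exact Nat.card_congr (Equiv.setCongr (Set.ext fun x => by
      simp only [classOf, coe_filter, mem_univ, true_and, Set.mem_ofPred_eq,
        ConjAct.mem_orbit_conjAct, isConj_comm]))
  rw [← h1]
  exact h

omit hp in
theorem factorization_classOf (g : G) :
    (classOf g).card.factorization p +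
      (Nat.card (Subgroup.centralizer ({g} : Set G))).factorization p =
    (Nat.card G).factorization p := by
  have h0 : (classOf g).card ≠ 0 :=
    card_ne_zero.2 ⟨g, mem_filter.2 ⟨mem_univ g, IsConj.refl g⟩⟩
  rw [← card_classOf g, Nat.factorization_mul h0 Nat.card_pos.ne', Finsupp.add_apply]

end FA.BrauerFeit

end
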