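import Fermat.Agent.BrauerFeit.Contributions

/-!
# Reduction of blocks and the order of the defect groups
-/

set_option autoImplicit false
set_option linter.style.haveILetI false

noncomputable section

open Finset FA.CharacterTheory FA.FrobeniusGroups FA.Thompson FA.PrincipalBlock
open scoped Classical

namespace FA.BrauerFeit

variable {G : Type*} [Group G] [Fintype G] {p : ℕ} [hp : Fact p.Prime] {v : Place p}

variable (v) in
/-- The reduced block idempotent of a character. -/
def red (χ : G → ℂ) : MonoidAlgebra v.k G := toAlg v (aS (blk v χ))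

omit [Fintype G] hp in
theorem rel_symm {χ ψ : G → ℂ} [Fintype G] (h : Rel v χ ψ) : Rel v ψ χ :=
  fun f hf => (h f hf).symm

omit hp in
theorem blk_eq {χ ψ : G → ℂ} (h : ψ ∈ blk v χ) : blk v ψ = blk v χ := by
  have hr := (mem_filter.1 h).2
  exact filter_congr fun φ _ => ⟨fun h' f hf => (hr f hf).trans (h' f hf),
    fun h' f hf => (rel_symm hr f hf).trans (h' f hf)⟩

omit hp in
theorem mem_blk_self {χ : G → ℂ} (hχ : χ ∈ irr G) : χ ∈ blk v χ :=
  mem_filter.2 ⟨hχ, fun _ _ => rfl⟩

omit hp in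
theorem red_mem_Z (χ : G → ℂ) : red v χ ∈ DefectGroups.Z v.k G :=
  toAlg_mem_Z (isCls_aS (blk_subset v χ))

omit hp in
theorem red_idem (χ : G → ℂ) : red v χ * red v χ = red v χ := by
  have h := (good_blk v χ).cen
  rw [red, ← toAlg_conv h.mem h.mem, conv_aS_self (blk_subset v χ)]

omit hp in
/-- The reduced central character of a product. -/
theorem r_omega_mul {χ F F' F'' : G → ℂ} (hF : IsCen v F) (hF' : IsCen v F') (hF'' : IsCen v F'')
    (h : toAlg v F * toAlg v F' = toAlg v F'') (hχ : χ ∈ irr G) :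
    v.r (omega χ F'') = v.r (omega χ F) * v.r (omega χ F') := by
  rw [← v.r_mul (hF.omega_mem hχ) (hF'.omega_mem hχ), ← omega_conv hχ hF'.cls]
  exact r_omega_congr hF'' (hF.conv hF') (by rw [toAlg_conv hF.mem hF'.mem, h]) hχ

omit hp in
/-- An idempotent with all reduced central characters zero is zero. -/
theorem eq_zero_of_omega {F : G → ℂ} (hF : IsCen v F) (hi : IsIdempotentElem (toAlg v F))
    (h : ∀ χ ∈ irr G, v.r (omega χ F) = 0) : toAlg v F = 0 :=
  hi.eq_zero_of_isNilpotent (isNilpotent_toAlg hF h)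

omit hp in
/-- **The reduction of a block idempotent is a block.** -/
theorem isBlock_red {χ₀ : G → ℂ} (hχ₀ : χ₀ ∈ irr G) : DefectGroups.IsBlock (red v χ₀) := by
  have hS := good_blk v χ₀
  refine ⟨red_mem_Z χ₀, red_idem χ₀, fun h0 => ?_, fun f hf hff hfe => ?_⟩
  · have h := r_omega_eq_zero hS.cen (fun g => by
      rw [← coeff_toAlg (v := v), ← red, h0]; rfl) hχ₀
    rw [omega_aS hS.sub hχ₀, if_pos (mem_blk_self hχ₀), v.r_one] at h
    exact one_ne_zero h
  obtain ⟨F, hF, rfl⟩ := exists_lift hf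
  have hout : ∀ χ ∈ irr G, χ ∉ blk v χ₀ → v.r (omega χ F) = 0 := fun χ hχ hn => by
    rw [r_omega_mul hF hS.cen hF hfe hχ, omega_aS hS.sub hχ, if_neg hn, v.r_zero, mul_zero]
  have hin : ∀ χ ∈ blk v χ₀, v.r (omega χ F) = v.r (omega χ₀ F) := fun χ hχ =>
    ((mem_filter.1 hχ).2 F hF).symm
  have h01 : IsIdempotentElem (v.r (omega χ₀ F)) := (r_omega_mul hF hF hF hff hχ₀).symm
  rcases IsIdempotentElem.iff_eq_zero_or_one.1 h01 with h0 | h1
  · exact Or.inl (eq_zero_of_omega hF hff fun χ hχ => if hm : χ ∈ blk v χ₀ then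
      (hin χ hm).trans h0 else hout χ hχ hm)
  · right
    have hd : toAlg v (aS (blk v χ₀) - F) = red v χ₀ - toAlg v F := by
      refine DefectGroups.ext_coeff fun g => ?_
      rw [MonoidAlgebra.coeff_sub, Finsupp.sub_apply, coeff_toAlg, red, coeff_toAlg, coeff_toAlg,
        Pi.sub_apply, v.r_sub (hS.cen.mem g) (hF.mem g)]
    have hz := eq_zero_of_omega (hS.cen.sub hF) (by
      rw [hd, IsIdempotentElem, sub_mul, mul_sub, mul_sub, red_idem, hff,
        ← Subalgebra.mem_center_iff.1 (red_mem_Z χ₀) (toAlg v F), show toAlg v F * red v χ₀ = _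
          from hfe, sub_self, sub_zero]) fun χ hχ => by
      rw [omega_sub, v.r_sub (hS.cen.omega_mem hχ) (hF.omega_mem hχ), omega_aS hS.sub hχ]
      split_ifs with hm
      · rw [hin χ hm, h1, v.r_one, sub_self]
      · rw [hout χ hχ hm, v.r_zero, sub_self]
    rw [hd, sub_eq_zero] at hz
    exact hz.symm

omit hp in
/-- **Reduction separates blocks.** -/
theorem red_injective {χ ψ : G → ℂ} (hχ : χ ∈ irr G) (h : red v χ = red v ψ) :
    blk v χ = blk v ψ := by
  refine blk_eq (by_contra fun hn => ?_)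
  have h' := r_omega_congr (good_blk v χ).cen (good_blk v ψ).cen h hχ
  rw [omega_aS (blk_subset v χ) hχ, if_pos (mem_blk_self hχ), omega_aS (blk_subset v ψ) hχ,
    if_neg hn, v.r_one, v.r_zero] at h'
  exact one_ne_zero h'

omit hp in
/-- **Every block is a reduction.** -/
theorem exists_red_eq {b : MonoidAlgebra v.k G} (hb : DefectGroups.IsBlock b) :
    ∃ χ ∈ irr G, red v χ = b := by
  obtain ⟨F, hF, rfl⟩ := exists_lift hb.1
  obtain ⟨χ, hχ, hne⟩ : ∃ χ ∈ irr G, v.r (omega χ F) ≠ 0 := by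
    by_contra! h
    exact hb.2.2.1 (eq_zero_of_omega hF hb.2.1 h)
  refine ⟨χ, hχ, ?_⟩
  set b := toAlg v F with hbdef
  have hS := good_blk v χ
  have hcm : red v χ * b = b * red v χ :=
    (Subalgebra.mem_center_iff.1 hb.1 _)
  have hi : b * red v χ * (b * red v χ) = b * red v χ := by
    rw [mul_assoc, ← mul_assoc (red v χ), hcm, mul_assoc b, red_idem, ← mul_assoc, hb.2.1]
  have hz : b * red v χ ∈ DefectGroups.Z v.k G := mul_mem hb.1 (red_mem_Z χ)
  rcases hb.2.2.2 _ hz hi (by rw [mul_assoc, hcm, ← mul_assoc, hb.2.1]) with h0 | h0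
  · exfalso
    have h := r_omega_congr (hF.conv hS.cen) ((IsCen.dlt (v := v)).smul (zero_mem _)) (by
      rw [toAlg_conv hF.mem hS.cen.mem]
      exact h0.trans (DefectGroups.ext_coeff fun g => by simp [coeff_toAlg, v.r_zero])) hχ
    rw [omega_conv hχ hS.cen.cls, omega_aS hS.sub hχ, if_pos (mem_blk_self hχ), mul_one,
      omega_smul, zero_mul, v.r_zero] at h
    exact hne h
  · rcases (isBlock_red hχ).2.2.2 _ hz hi (by rw [mul_assoc, red_idem]) with h1 | h1
    · exact absurd (h0.symm.trans h1) hb.2.2.1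
    · exact h1.symm.trans h0

/-- In a defect group's range the exponents of the class sizes are known. -/
theorem factorization_centralizer {D : Subgroup G} {g : G}
    (hg : DefectGroups.Sub p D g) {δ : ℕ} (hδ : Nat.card D = p ^ δ) :
    (Nat.card (Subgroup.centralizer ({g} : Set G))).factorization p ≤ δ := by
  obtain ⟨P, hP⟩ := Sylow.exists_subgroup_card_pow_prime
    (G := Subgroup.centralizer ({g} : Set G)) p (Nat.ordProj_dvd _ p)
  set Q := P.map (Subgroup.centralizer ({g} : Set G)).subtype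
  obtain ⟨c, hc⟩ := hg Q ((IsPGroup.of_card hP).map _) (by
    rw [Subgroup.mem_centralizer_iff]
    rintro _ ⟨u, -, rfl⟩
    exact Subgroup.mem_centralizer_singleton_iff.1 u.2)
  have hle := Subgroup.card_le_of_le (show Q.map (MulAut.conj c).toMonoidHom ≤ D by
    rintro _ ⟨u, hu, rfl⟩
    exact hc u hu)
  rw [Subgroup.card_map_of_injective (MulAut.conj c).injective,
    Subgroup.card_map_of_injective (Subgroup.subtype_injective _), hP, hδ] at hle
  exact (Nat.pow_le_pow_iff_right hp.out.one_lt).1 hle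

omit hp in
/-- The class sums have central characters in `O`. -/
theorem class_mem {χ : G → ℂ} (hχ : χ ∈ irr G) (g : G) :
    ((classOf g).card : ℂ) * (χ g / χ 1) ∈ v.O := by
  have hcen : IsCen v fun x => if IsConj g x then (1 : ℂ) else 0 :=
    ⟨fun c x => by
      simp only [show IsConj g (c * x * c⁻¹) ↔ IsConj g x from
        ⟨fun h => h.trans (isConj_iff.2 ⟨c, rfl⟩).symm,
         fun h => h.trans (isConj_iff.2 ⟨c, rfl⟩)⟩],
    fun x => by split_ifs <;> simp [one_mem, zero_mem]⟩
  convert hcen.omega_mem hχ using 1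
  rw [omega, sum_congr rfl fun x (_ : x ∈ univ) => show
    (if IsConj g x then (1 : ℂ) else 0) * χ x = if IsConj g x then χ g else 0 by
      split_ifs with h
      · obtain ⟨c, rfl⟩ := isConj_iff.1 h
        rw [one_mul, irr_conj hχ]
      · rw [zero_mul], ← sum_filter, sum_const, nsmul_eq_mul, classOf]
  ring

theorem le_class_add {χ₀ : G → ℂ} {D : Subgroup G} (hD : DefectGroups.IsDefect p D (red v χ₀))
    {δ : ℕ} (hδ : Nat.card D = p ^ δ) {g : G} (hg : v.r (aS (blk v χ₀) g) ≠ 0) :
    (Nat.card G).factorization p ≤ (classOf g).card.factorization p + δ := by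
  have h1 := factorization_centralizer (hD.2.1.2 g (by rwa [red, coeff_toAlg])) hδ
  have h2 := factorization_classOf (p := p) g
  omega

/-- The exponents in a block are at least `a - δ`. -/
theorem le_degree_add {χ₀ : G → ℂ} {D : Subgroup G} (hD : DefectGroups.IsDefect p D (red v χ₀))
    {δ : ℕ} (hδ : Nat.card D = p ^ δ) {χ : G → ℂ} (hχ : χ ∈ blk v χ₀) :
    (Nat.card G).factorization p ≤ (deg χ).factorization p + δ := by
  have hS := good_blk v χ₀
  by_contra! hlt
  have hχi := hS.sub hχ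
  have h1 : v.r (omega χ (aS (blk v χ₀))) = 1 := by rw [omega_aS hS.sub hχi, if_pos hχ, v.r_one]
  have hsum : omega χ (aS (blk v χ₀)) = ∑ g, aS (blk v χ₀) g * χ g / χ 1 := by
    rw [omega, mul_sum]
    exact sum_congr rfl fun g _ => by ring
  have hsplit := sum_fiberwise (univ : Finset G) ConjClasses.mk
    fun g => aS (blk v χ₀) g * χ g / χ 1
  have hterm : ∀ C : ConjClasses G,
      (∑ g ∈ univ.filter (fun g => ConjClasses.mk g = C), aS (blk v χ₀) g * χ g / χ 1) ∈ v.O ∧
      v.r (∑ g ∈ univ.filter (fun g => ConjClasses.mk g = C), aS (blk v χ₀) g * χ g / χ 1) =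
        0 := by
    intro C
    obtain ⟨g, rfl⟩ := C.exists_rep
    have hfil : univ.filter (fun x => ConjClasses.mk x = ConjClasses.mk g) = classOf g :=
      filter_congr fun x _ => by rw [ConjClasses.mk_eq_mk_iff_isConj, isConj_comm]
    have hconst : ∀ x ∈ classOf g, aS (blk v χ₀) x * χ x / χ 1 =
        aS (blk v χ₀) g * χ g / χ 1 := fun x hx => by
      obtain ⟨c, rfl⟩ := isConj_iff.1 (mem_filter.1 hx).2
      rw [hS.cen.cls, irr_conj hχi]
    rw [hfil, sum_congr rfl hconst, sum_const, nsmul_eq_mul]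
    by_cases hg : v.r (aS (blk v χ₀) g) = 0
    · have hw : (classOf g).card * (χ g / χ 1) ∈ v.O := class_mem hχi g
      rw [show ((classOf g).card : ℂ) * (aS (blk v χ₀) g * χ g / χ 1) =
        aS (blk v χ₀) g * ((classOf g).card * (χ g / χ 1)) by ring]
      exact ⟨mul_mem (hS.cen.mem g) hw, by rw [v.r_mul (hS.cen.mem g) hw, hg, zero_mul]⟩
    · obtain ⟨hm, h0⟩ := r_div_eq_zero (v := v) (n := (classOf g).card) (deg_spec hχi).2
        (by have := le_class_add hD hδ hg; omega)
      have hm' := mul_mem (hS.cen.mem g) (v.irr_mem hχi g)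
      rw [(deg_spec hχi).1, show ((classOf g).card : ℂ) * (aS (blk v χ₀) g * χ g / deg χ) =
        (classOf g).card / (deg χ : ℂ) * (aS (blk v χ₀) g * χ g) by ring]
      exact ⟨mul_mem hm hm', by rw [v.r_mul hm hm', h0, zero_mul]⟩
  rw [hsum, ← hsplit, v.r_sum _ fun C _ => (hterm C).1,
    sum_eq_zero fun C _ => (hterm C).2] at h1
  exact zero_ne_one h1

/-- **The defect group fixes the degrees.** -/
theorem exists_degree_exact {χ₀ : G → ℂ} {D : Subgroup G}
    (hD : DefectGroups.IsDefect p D (red v χ₀)) {δ : ℕ} (hδ : Nat.card D = p ^ δ) :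
    ∃ χ ∈ blk v χ₀, (deg χ).factorization p + δ = (Nat.card G).factorization p := by
  have hS := good_blk v χ₀
  obtain ⟨g, hgD, hg⟩ := DefectGroups.exists_coeff_of_br hD.2.2
  rw [red, coeff_toAlg] at hg
  have hle : δ ≤ (Nat.card (Subgroup.centralizer ({g} : Set G))).factorization p := by
    refine (hp.out.pow_dvd_iff_le_factorization Nat.card_pos.ne').1
      (hδ ▸ Subgroup.card_dvd_of_le fun u hu => ?_)
    exact Subgroup.mem_centralizer_singleton_iff.2 (Subgroup.mem_centralizer_iff.1 hgD u hu)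
  obtain ⟨c, hc, he⟩ := exists_aS_expansion hS
  have hreg : Reg p g := by_contra fun h => hg (by rw [hS.aS_singular h, v.r_zero])
  have hval : aS (blk v χ₀) g = ∑ χ ∈ blk v χ₀, c χ * χ g⁻¹ := by
    conv_lhs => rw [he]
    simp [rpart, indR, hreg]
  obtain ⟨χ, hχ, hne⟩ : ∃ χ ∈ blk v χ₀, v.r (χ g⁻¹) ≠ 0 := by
    by_contra! hall
    refine hg ?_
    rw [hval, v.r_sum _ fun χ hχ => mul_mem (hc χ hχ) (v.irr_mem (hS.sub hχ) _)]
    exact sum_eq_zero fun χ hχ => by
      rw [v.r_mul (hc χ hχ) (v.irr_mem (hS.sub hχ) _), hall χ hχ, mul_zero]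
  have hχi := hS.sub hχ
  refine ⟨χ, hχ, ?_⟩
  have hcard : (classOf g⁻¹).card = (classOf g).card := by
    refine card_nbij' (·⁻¹) (·⁻¹) ?_ ?_ (fun x _ => inv_inv x) (fun x _ => inv_inv x) <;>
    · intro x hx
      simp only [classOf, coe_filter, mem_univ, true_and, Set.mem_ofPred_eq, isConj_iff] at hx ⊢
      obtain ⟨c, hc⟩ := hx
      exact ⟨c, by rw [← hc]; group⟩
  have hw := mul_mem (class_mem (v := v) hχi g⁻¹) (v.inv_mem (v.irr_mem hχi _) hne)
  have hdiv : ((classOf g).card : ℂ) / deg χ ∈ v.O := by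
    convert hw using 1
    have h0 : χ g⁻¹ ≠ 0 := fun h => hne (by rw [h, v.r_zero])
    rw [(deg_spec hχi).1, hcard]
    field_simp
  have h3 := le_of_div_mem (n := (classOf g).card)
    (card_ne_zero.2 ⟨g, mem_filter.2 ⟨mem_univ g, IsConj.refl g⟩⟩)
    (deg_spec hχi).2 hdiv
  have h4 := factorization_classOf (p := p) g
  have h5 := le_degree_add hD hδ hχ
  omega

end FA.BrauerFeit

end
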