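import Fermat.Agent.BrauerFeit.Blocks

/-!
# The theorem of Brauer and Feit, and blocks of defect zero
-/

set_option autoImplicit false
set_option linter.style.haveILetI false

noncomputable section

open Finset FA.CharacterTheory FA.FrobeniusGroups FA.Thompson FA.PrincipalBlock
open scoped Classical

namespace FA.BrauerFeit

variable {G : Type*} [Group G] [Fintype G] {p : ℕ} [hp : Fact p.Prime] {v : Place p}

/-- **The defect of the block is the exponent of the order of its defect groups.** -/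
theorem card_defect {χ₀ : G → ℂ} {D : Subgroup G}
    (hD : DefectGroups.IsDefect p D (red v χ₀)) :
    Nat.card D = p ^ ordDefect p (blk v χ₀) := by
  obtain ⟨δ, hδ⟩ := hD.1.exists_card_eq
  obtain ⟨χ, hχ, he⟩ := exists_degree_exact hD hδ
  rw [hδ]
  congr 1
  refine le_antisymm ((show δ ≤ defectExp p χ by rw [defectExp]; omega).trans
    (le_sup (f := defectExp p) hχ)) (Finset.sup_le fun ψ hψ => ?_)
  have := le_degree_add hD hδ hψ
  rw [defectExp]
  omega

/-- The degrees in a block: `p^(a-d)` divides all of them and exactly divides some. -/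
theorem degree_dvd {χ₀ : G → ℂ} (hχ₀ : χ₀ ∈ irr G) :
    (∀ χ ∈ blk v χ₀, p ^ ((Nat.card G).factorization p - ordDefect p (blk v χ₀)) ∣ deg χ) ∧
      ∃ χ ∈ blk v χ₀,
        (deg χ).factorization p = (Nat.card G).factorization p - ordDefect p (blk v χ₀) := by
  obtain ⟨D, hD⟩ := DefectGroups.exists_defect (p := p) (isBlock_red (v := v) hχ₀)
  have hc := card_defect hD
  refine ⟨fun χ hχ => ?_, ?_⟩
  · refine (hp.out.pow_dvd_iff_le_factorization (deg_spec (blk_subset v _ hχ)).2).2 ?_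
    have := le_degree_add hD hc hχ
    omega
  · obtain ⟨χ, hχ, he⟩ := exists_degree_exact hD hc
    exact ⟨χ, hχ, by omega⟩

/-- The integral matrix of a block: idempotent up to `pᵈ` and symmetric. -/
theorem exists_matrix {S : Finset (G → ℂ)} (hS : Good v S) :
    ∃ M : (G → ℂ) → (G → ℂ) → ℤ,
      (∀ χ ∈ S, ∀ ψ ∈ S, (p : ℂ) ^ ordDefect p S * contr p χ ψ = M χ ψ) ∧
      (∀ χ ∈ S, ∀ φ ∈ S, ∑ ψ ∈ S, M χ ψ * M ψ φ = (p : ℤ) ^ ordDefect p S * M χ φ) ∧
      ∀ χ ∈ S, ∀ ψ ∈ S, M χ ψ = M ψ χ := by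
  choose! M hM using fun χ (hχ : χ ∈ S) ψ (hψ : ψ ∈ irr G) => exists_int_contr_block hS hχ hψ
  refine ⟨M, fun χ hχ ψ hψ => hM χ hχ ψ (hS.sub hψ), fun χ hχ φ hφ => ?_, fun χ hχ ψ hψ => ?_⟩
  · apply Int.cast_injective (α := ℂ)
    push_cast
    rw [← hM χ hχ φ (hS.sub hφ), ← contr_idem hS hχ, mul_sum, mul_sum]
    refine sum_congr rfl fun ψ hψ => ?_
    rw [← hM χ hχ ψ (hS.sub hψ), ← hM ψ hψ φ (hS.sub hφ)]
    ring
  · apply Int.cast_injective (α := ℂ)
    rw [← hM χ hχ ψ (hS.sub hψ), ← hM ψ hψ χ (hS.sub hχ), contr_comm]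

/-- **The theorem of Brauer and Feit.** -/
theorem card_blk_le {χ₀ : G → ℂ} (hχ₀ : χ₀ ∈ irr G) :
    4 * ((blk v χ₀).card - 1) ≤ p ^ (2 * ordDefect p (blk v χ₀)) := by
  have hS := good_blk v χ₀
  obtain ⟨φ, hφ, hne⟩ := exists_contr_ne_zero (v := v) (p := p) hχ₀
  obtain ⟨M, hM, hMM, hsymm⟩ := exists_matrix hS
  set d := ordDefect p (blk v χ₀)
  set m := M φ φ
  have h1 : ∀ χ ∈ (blk v χ₀).erase φ, (1 : ℤ) ≤ M φ χ * M χ φ := fun χ hχ => by
    have hχS := mem_of_mem_erase hχ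
    rw [hsymm χ hχS φ hφ]
    have h0 : M φ χ ≠ 0 := fun h0 => hne χ hχS (by
      have h := hM φ hφ χ hχS
      rw [h0, Int.cast_zero, mul_eq_zero, or_iff_right
        (pow_ne_zero _ (Nat.cast_ne_zero.2 hp.out.ne_zero)), contr_comm] at h
      exact h)
    nlinarith [mul_self_pos.2 h0]
  have h2 := hMM φ hφ φ hφ
  rw [← add_sum_erase _ _ hφ] at h2
  have h3 : (((blk v χ₀).erase φ).card : ℤ) ≤
      ∑ χ ∈ (blk v χ₀).erase φ, M φ χ * M χ φ := by
    simpa using card_nsmul_le_sum _ _ _ h1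
  rw [card_erase_of_mem hφ] at h3
  have h4 : (4 : ℤ) * ((blk v χ₀).card - 1 : ℕ) ≤ ((p ^ (2 * d) : ℕ) : ℤ) := by
    push_cast
    rw [two_mul, pow_add]
    nlinarith [sq_nonneg ((p : ℤ) ^ d - 2 * m)]
  exact_mod_cast h4

theorem card_blk_le_sq {χ₀ : G → ℂ} (hχ₀ : χ₀ ∈ irr G) :
    (blk v χ₀).card ≤ p ^ (2 * ordDefect p (blk v χ₀)) := by
  have h := card_blk_le (v := v) (p := p) hχ₀
  have : 1 ≤ p ^ (2 * ordDefect p (blk v χ₀)) := Nat.one_le_pow _ _ hp.out.pos
  omega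

/-- **A character of `p`-defect zero is alone in its block and vanishes on singular elements.** -/
theorem defect_zero {χ₀ : G → ℂ} (hχ₀ : χ₀ ∈ irr G)
    (h : p ^ (Nat.card G).factorization p ∣ deg χ₀) :
    (∀ g, ¬ Reg p g → χ₀ g = 0) ∧ blk v χ₀ = {χ₀} := by
  have he : (Nat.card G).factorization p ≤ (deg χ₀).factorization p :=
    (hp.out.pow_dvd_iff_le_factorization (deg_spec hχ₀).2).1 h
  have hS := good_blk v χ₀
  have hmem := mem_blk_self (v := v) hχ₀
  have hd : defectExp p χ₀ = 0 := by rw [defectExp]; omega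
  choose! n hn using fun ψ (hψ : ψ ∈ irr G) => exists_int_contr v hχ₀ hψ
  have hn' : ∀ ψ ∈ blk v χ₀, contr p χ₀ ψ = n ψ := fun ψ hψ => by
    rw [← hn ψ (hS.sub hψ), hd, pow_zero, one_mul]
  have hsq : ∑ ψ ∈ blk v χ₀, n ψ * n ψ = n χ₀ := by
    apply Int.cast_injective (α := ℂ)
    push_cast
    rw [← hn' χ₀ hmem, ← contr_idem hS hmem]
    exact sum_congr rfl fun ψ hψ => by rw [contr_comm ψ χ₀, hn' ψ hψ]
  rw [← add_sum_erase _ _ hmem] at hsq
  have hnn : 0 ≤ ∑ ψ ∈ (blk v χ₀).erase χ₀, n ψ * n ψ :=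
    sum_nonneg fun ψ _ => mul_self_nonneg _
  have hcut := cut_eq_sum (p := p) hS hmem
  have hrest : ∀ ψ ∈ (blk v χ₀).erase χ₀, n ψ = 0 := fun ψ hψ => by
    have h0 : n χ₀ ≤ 1 := by
      by_contra! h'
      nlinarith
    have h0' : 0 ≤ n χ₀ := by nlinarith [mul_self_nonneg (n χ₀)]
    have hz : ∑ ψ ∈ (blk v χ₀).erase χ₀, n ψ * n ψ = 0 := by
      rcases (by omega : n χ₀ = 0 ∨ n χ₀ = 1) with h' | h' <;> rw [h'] at hsq <;> linarith
    exact mul_self_eq_zero.1
      ((sum_eq_zero_iff_of_nonneg fun ψ _ => mul_self_nonneg (n ψ)).1 hz ψ hψ)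
  have hcut' : ∀ g, indR p g * χ₀ g = n χ₀ * χ₀ g := fun g => by
    rw [hcut g, ← add_sum_erase _ _ hmem, hn' _ hmem, sum_eq_zero fun ψ hψ => by
      rw [hn' ψ (mem_of_mem_erase hψ), hrest ψ hψ, Int.cast_zero, zero_mul], add_zero]
  have h1 : (n χ₀ : ℂ) = 1 := by
    have h' := hcut' 1
    rw [indR, if_pos Reg.one] at h'
    exact (mul_right_cancel₀ (irr_one_ne_zero hχ₀) h').symm
  refine ⟨fun g hg => ?_, ?_⟩
  · have h' := hcut' g
    rw [indR, if_neg hg, h1, zero_mul, one_mul] at h'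
    exact h'.symm
  have hsing : ({χ₀} : Finset (G → ℂ)) ⊆ irr G := by simpa using hχ₀
  have hcen : IsCen v (aS ({χ₀} : Finset (G → ℂ))) := ⟨isCls_aS hsing, fun g => by
    simp only [aS, coef, sum_singleton, mul_one]
    rw [← mul_assoc]
    refine mul_mem ?_ (v.irr_mem hχ₀ _)
    obtain ⟨l, hl, hG⟩ := split_natCast (p := p) (Nat.card_pos (α := G)).ne'
    obtain ⟨k, hk⟩ := h
    have hp0 : (p : ℂ) ≠ 0 := Nat.cast_ne_zero.2 hp.out.ne_zero
    rw [(deg_spec hχ₀).1, hk, show (Nat.card G : ℂ) = (p : ℂ) ^ (Nat.card G).factorization p * l by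
      exact_mod_cast congrArg (Nat.cast (R := ℂ)) hG, mul_inv]
    push_cast
    rw [show ∀ A : ℂ, A ≠ 0 → A⁻¹ * (l : ℂ)⁻¹ * (A * k) = (l : ℂ)⁻¹ * k from
      fun A hA => by field_simp]
    · exact mul_mem (v.inv_natCast_mem hl) (natCast_mem _ _)
    · exact pow_ne_zero _ hp0⟩
  refine eq_singleton_iff_unique_mem.2 ⟨hmem, fun ψ hψ => by_contra fun hne => ?_⟩
  have h' := (mem_filter.1 hψ).2 _ hcen
  rw [omega_aS hsing hχ₀, omega_aS hsing (hS.sub hψ), if_pos (mem_singleton_self _),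
    if_neg (by simpa using hne), v.r_one, v.r_zero] at h'
  exact one_ne_zero h'

/-- A character vanishing on the singular elements has degree divisible by `pᵃ`. -/
theorem pow_dvd_deg_of_vanish {χ : G → ℂ} (hχ : χ ∈ irr G)
    (h : ∀ g, ¬ Reg p g → χ g = 0) : p ^ (Nat.card G).factorization p ∣ deg χ := by
  obtain ⟨P, hP⟩ := Sylow.exists_subgroup_card_pow_prime (G := G) p (Nat.ordProj_dvd _ p)
  obtain ⟨W, -, rfl⟩ := exists_of_mem_irr hχ
  obtain ⟨c, hc⟩ := exists_int_average (K := P) (W.toRepresentation.comp P.subtype)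
  simp only [pairing, one_mul] at hc
  rw [Finset.sum_eq_single (1 : P) (fun x _ hx => ?_) (by simp), inv_one] at hc
  · have hc' : (deg W.toRepresentation.character : ℂ) = (Nat.card P : ℂ) * c := by
      rw [← (deg_spec hχ).1, ← hc,
        mul_inv_cancel_left₀ (Nat.cast_ne_zero.2 Nat.card_pos.ne')]
      show W.toRepresentation.character 1 = _
      simp [Representation.character]
    rw [← hP]
    refine Int.natCast_dvd_natCast.1 ⟨c, ?_⟩
    exact_mod_cast hc'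
  · refine h _ fun hr => hx ?_
    obtain ⟨k, hk⟩ := (IsPGroup.of_card hP) x
    have := hr.eq_one_of_pow (k := k)
      (by rw [← map_pow, inv_pow, hk, inv_one, map_one])
    exact inv_eq_one.1 (Subtype.ext (this : ((x⁻¹ : P) : G) = 1))

/-- **Trivial defect group means a degree divisible by `pᵃ`.** -/
theorem defect_trivial_iff {χ₀ : G → ℂ} (hχ₀ : χ₀ ∈ irr G) {D : Subgroup G}
    (hD : DefectGroups.IsDefect p D (red v χ₀)) :
    D = ⊥ ↔ p ^ (Nat.card G).factorization p ∣ deg χ₀ := by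
  rw [← Subgroup.card_eq_one, card_defect hD, Nat.pow_eq_one,
    hp.out.pow_dvd_iff_le_factorization (deg_spec hχ₀).2, or_iff_right hp.out.ne_one]
  constructor
  · intro h0
    have : defectExp p χ₀ ≤ ordDefect p (blk v χ₀) := le_sup (mem_blk_self hχ₀)
    rw [defectExp] at this
    omega
  · intro h
    rw [ordDefect, (defect_zero hχ₀ ((hp.out.pow_dvd_iff_le_factorization
      (deg_spec hχ₀).2).2 h)).2, sup_singleton, defectExp]
    omega

end FA.BrauerFeit

end
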